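import Fermat.Agent.RT.Lift59.Lim.Ring
import Fermat.Agent.RT.Algebra.Limit

/-!
# The limit of a sequence of modules free over shrinking quotients of a power series ring
-/

set_option autoImplicit false

noncomputable section

namespace Fermat.Agent.RT.Lift59.Lim

open IsLocalRing Fermat.Agent.RT.Algebra

variable {O : Type} [CommRing O] [IsLocalRing O] {ι : Type}
  {A : ℕ → Type} [∀ n, CommRing (A n)] [∀ n, IsLocalRing (A n)]

/-- Modules over `A n` and `S = O[[ι]]`, spanned over `S` by a basis of constant length which is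
independent to growing orders. -/
structure ModSeq (U : Ultrafilter ℕ) (A : ℕ → Type) [∀ n, CommRing (A n)] (ι O : Type)
    [CommRing O] [IsLocalRing O] : Type 1 where
  M : ℕ → Type
  [acg : ∀ n, AddCommGroup (M n)]
  [modA : ∀ n, Module (A n) (M n)]
  [modS : ∀ n, Module (MvPowerSeries ι O) (M n)]
  [comm : ∀ n, SMulCommClass (A n) (MvPowerSeries ι O) (M n)]
  D : ℕ
  b : ∀ n, Fin D → M n
  span : ∀ n (x : M n), ∃ c : Fin D → MvPowerSeries ι O, x = ∑ i, c i • b n i
  indep : ∀ K : ℕ, ∀ᶠ n in (U : Filter ℕ), ∀ c : Fin D → MvPowerSeries ι O,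
    ∑ i, c i • b n i = 0 → ∀ i, c i ∈ maximalIdeal (MvPowerSeries ι O) ^ K

attribute [instance] ModSeq.acg ModSeq.modA ModSeq.modS ModSeq.comm

variable {U : Ultrafilter ℕ} (P : ModSeq U A ι O)

local notation "S" => MvPowerSeries ι O

/-- The depth filtration at level `n`. -/
abbrev ModSeq.fil (n K : ℕ) : Submodule S (P.M n) :=
  maximalIdeal S ^ K • (⊤ : Submodule S (P.M n))

omit [∀ n, IsLocalRing (A n)] in
theorem ModSeq.smul_mem_fil (n K : ℕ) (a : A n) {x : P.M n} (hx : x ∈ P.fil n K) :
    a • x ∈ P.fil n K := by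
  refine Submodule.smul_induction_on hx (fun c hc y _ => ?_) fun y z hy hz => ?_
  · rw [smul_comm]
    exact Submodule.smul_mem_smul hc Submodule.mem_top
  · rw [smul_add]
    exact add_mem hy hz

omit [∀ n, IsLocalRing (A n)] in
theorem ModSeq.exists_coeff_of_mem {n K : ℕ} {x : P.M n} (hx : x ∈ P.fil n K) :
    ∃ c : Fin P.D → S, (∀ i, c i ∈ maximalIdeal S ^ K) ∧ x = ∑ i, c i • P.b n i := by
  refine Submodule.smul_induction_on hx (fun r hr y _ => ?_) fun y z hy hz => ?_
  · obtain ⟨c, rfl⟩ := P.span n y
    exact ⟨fun i => r * c i, fun i => Ideal.mul_mem_right _ _ hr,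
      by simp only [Finset.smul_sum, smul_smul]⟩
  · obtain ⟨c, hc, rfl⟩ := hy
    obtain ⟨d, hd, rfl⟩ := hz
    exact ⟨c + d, fun i => add_mem (hc i) (hd i),
      by simp only [Pi.add_apply, add_smul, Finset.sum_add_distrib]⟩

/-- Eventually deep sequences. -/
def ModSeq.deepM : Submodule S (∀ n, P.M n) where
  carrier := {x | ∀ K : ℕ, ∀ᶠ n in (U : Filter ℕ), x n ∈ P.fil n K}
  add_mem' {x y} hx hy K := by
    filter_upwards [hx K, hy K] with n h1 h2 using add_mem h1 h2
  zero_mem' K := Filter.Eventually.of_forall fun n => zero_mem _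
  smul_mem' c x hx K := (hx K).mono fun n h => Submodule.smul_mem _ c h

/-- The limit module. -/
def ModSeq.Limit : Type := (∀ n, P.M n) ⧸ P.deepM

instance : AddCommGroup P.Limit := inferInstanceAs (AddCommGroup ((∀ n, P.M n) ⧸ P.deepM))

instance : Module S P.Limit := inferInstanceAs (Module S ((∀ n, P.M n) ⧸ P.deepM))

/-- The class of a sequence. -/
def ModSeq.cls : (∀ n, P.M n) →ₗ[S] P.Limit := P.deepM.mkQ

omit [∀ n, IsLocalRing (A n)] in
theorem ModSeq.cls_surjective : Function.Surjective P.cls := Submodule.mkQ_surjective _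

omit [∀ n, IsLocalRing (A n)] in
theorem ModSeq.cls_eq_zero_iff {x : ∀ n, P.M n} :
    P.cls x = 0 ↔ ∀ K : ℕ, ∀ᶠ n in (U : Filter ℕ), x n ∈ P.fil n K :=
  Submodule.Quotient.mk_eq_zero _

omit [∀ n, IsLocalRing (A n)] in
theorem ModSeq.cls_eq_iff {x y : ∀ n, P.M n} :
    P.cls x = P.cls y ↔ ∀ K : ℕ, ∀ᶠ n in (U : Filter ℕ), x n - y n ∈ P.fil n K := by
  rw [← sub_eq_zero, ← map_sub, P.cls_eq_zero_iff]
  rfl

/-- Multiplication by a sequence of scalars. -/
def ModSeq.mulSeq (a : ∀ n, A n) : (∀ n, P.M n) →ₗ[S] (∀ n, P.M n) where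
  toFun x n := a n • x n
  map_add' _ _ := funext fun _ => smul_add _ _ _
  map_smul' _ _ := funext fun _ => smul_comm _ _ _

/-- The action of the sequences of scalars on the limit. -/
def ModSeq.seqAct : (∀ n, A n) →+* Module.End S P.Limit where
  toFun a := P.deepM.mapQ P.deepM (P.mulSeq a) fun _ hx K =>
    (hx K).mono fun n h => P.smul_mem_fil n K (a n) h
  map_one' := Submodule.linearMap_qext _ (LinearMap.ext fun x =>
    congrArg (Submodule.Quotient.mk (p := P.deepM)) (funext fun n => one_smul (A n) (x n)))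
  map_mul' a b := Submodule.linearMap_qext _ (LinearMap.ext fun x =>
    congrArg (Submodule.Quotient.mk (p := P.deepM)) (funext fun n => mul_smul (a n) (b n) (x n)))
  map_zero' := Submodule.linearMap_qext _ (LinearMap.ext fun x =>
    congrArg (Submodule.Quotient.mk (p := P.deepM)) (funext fun n => zero_smul (A n) (x n)))
  map_add' a b := Submodule.linearMap_qext _ (LinearMap.ext fun x =>
    congrArg (Submodule.Quotient.mk (p := P.deepM)) (funext fun n => add_smul (a n) (b n) (x n)))

variable [Finite ι] [IsNoetherianRing O] [IsAdicComplete (maximalIdeal O) O]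
  [Finite (ResidueField O)]

omit [IsAdicComplete (maximalIdeal O) O] in
/-- Deep scalars map into deep submodules, uniformly in the level. -/
theorem ModSeq.exists_depth (K : ℕ) :
    ∃ K' : ℕ, ∀ n, ∀ a ∈ maximalIdeal (A n) ^ K', ∀ x : P.M n, a • x ∈ P.fil n K := by
  have := finite_residueField_mvPowerSeries (σ := ι) (O := O)
  have hq : Finite (S ⧸ maximalIdeal S ^ K) := finite_quotient_pow K
  set c := Nat.card (Fin P.D → S ⧸ maximalIdeal S ^ K)
  refine ⟨c ^ c, fun n a ha x => ?_⟩
  let Q := P.M n ⧸ P.fil n K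
  let g : (Fin P.D → S ⧸ maximalIdeal S ^ K) → Q := fun v =>
    Submodule.Quotient.mk (∑ i, Quotient.out (v i) • P.b n i)
  have hg : Function.Surjective g := fun q => by
    obtain ⟨y, rfl⟩ := Submodule.Quotient.mk_surjective _ q
    obtain ⟨d, rfl⟩ := P.span n y
    refine ⟨fun i => Ideal.Quotient.mk _ (d i), (Submodule.Quotient.eq _).2 ?_⟩
    rw [← Finset.sum_sub_distrib]
    refine Submodule.sum_mem _ fun i _ => ?_
    rw [← sub_smul]
    exact Submodule.smul_mem_smul (Ideal.Quotient.eq.1 (Ideal.Quotient.mk_out _)) Submodule.mem_top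
  have : Finite Q := Finite.of_surjective g hg
  let h : A n →+* Module.End S Q :=
    { toFun := fun a => (P.fil n K).mapQ (P.fil n K)
        { toFun := fun y : P.M n => a • y
          map_add' := smul_add a
          map_smul' := fun r y => smul_comm a r y }
        fun _ hy => P.smul_mem_fil n K a hy
      map_one' := Submodule.linearMap_qext _ (LinearMap.ext fun y =>
        congrArg (Submodule.Quotient.mk (p := P.fil n K)) (one_smul (A n) y))
      map_mul' := fun a b => Submodule.linearMap_qext _ (LinearMap.ext fun y =>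
        congrArg (Submodule.Quotient.mk (p := P.fil n K)) (mul_smul a b y))
      map_zero' := Submodule.linearMap_qext _ (LinearMap.ext fun y =>
        congrArg (Submodule.Quotient.mk (p := P.fil n K)) (zero_smul (A n) y))
      map_add' := fun a b => Submodule.linearMap_qext _ (LinearMap.ext fun y =>
        congrArg (Submodule.Quotient.mk (p := P.fil n K)) (add_smul a b y)) }
  have : Finite (Module.End S Q) :=
    Finite.of_injective (fun f : Module.End S Q => (f : Q → Q)) DFunLike.coe_injective
  have hQc : Nat.card Q ≤ c := Nat.card_le_card_of_surjective g hg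
  have hR : Nat.card (Module.End S Q) ≤ c ^ c := by
    refine (Nat.card_le_card_of_injective (fun f : Module.End S Q => (f : Q → Q))
      DFunLike.coe_injective).trans ?_
    rw [Nat.card_fun]
    refine (Nat.pow_le_pow_left hQc _).trans (Nat.pow_le_pow_right ?_ hQc)
    exact lt_of_lt_of_le Nat.card_pos hQc
  have h0 := map_eq_zero_of_mem_pow_card h (Ideal.pow_le_pow_right hR ha)
  exact (Submodule.Quotient.mk_eq_zero _).1 (LinearMap.congr_fun h0 (Submodule.Quotient.mk x))

/-- The action of the limit ring. -/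
def ModSeq.act : LimRing U A →+* Module.End S P.Limit :=
  Ideal.Quotient.lift (deep U A) P.seqAct fun a ha =>
    Submodule.linearMap_qext _ (LinearMap.ext fun x => (Submodule.Quotient.mk_eq_zero _).2 fun K => by
      obtain ⟨K', hK'⟩ := P.exists_depth K
      exact (ha K').mono fun n hn => hK' n _ hn _)

instance : Module (LimRing U A) P.Limit := Module.compHom P.Limit P.act

omit [IsAdicComplete (maximalIdeal O) O] in
theorem ModSeq.smul_cls (a : ∀ n, A n) (x : ∀ n, P.M n) :
    lim U A a • P.cls x = P.cls fun n => a n • x n := rfl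

instance : SMulCommClass (LimRing U A) S P.Limit :=
  ⟨fun a c x => (P.act a).map_smul c x⟩

omit [∀ (n : ℕ), IsLocalRing (A n)] in
/-- The limit is free. -/
theorem ModSeq.exists_basis : Nonempty (Module.Basis (Fin P.D) S P.Limit) := by
  let f : (Fin P.D → S) →ₗ[S] P.Limit :=
    P.cls.comp (LinearMap.pi fun n => Fintype.linearCombination S (P.b n))
  have hf : ∀ c, f c = P.cls fun n => ∑ i, c i • P.b n i := fun c => by
    refine congrArg P.cls (funext fun n => ?_)
    rw [LinearMap.pi_apply, Fintype.linearCombination_apply]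
  refine ⟨Module.Basis.ofEquivFun (LinearEquiv.ofBijective f ⟨?_, ?_⟩).symm⟩
  · refine (injective_iff_map_eq_zero f).2 fun c hc => funext fun i => ?_
    rw [hf, P.cls_eq_zero_iff] at hc
    refine Algebra.eq_of_eventually_sub_mem U fun K => ?_
    filter_upwards [hc K, P.indep K] with n hn hind
    obtain ⟨d, hd, he⟩ := P.exists_coeff_of_mem hn
    have h := hind (c - d) (by
      simp only [Pi.sub_apply, sub_smul, Finset.sum_sub_distrib, he, sub_self]) i
    rw [Pi.zero_apply, sub_zero]
    simpa using add_mem h (hd i)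
  · intro z
    obtain ⟨x, rfl⟩ := P.cls_surjective z
    choose c hc using fun n => P.span n (x n)
    choose L hL using fun i => exists_ultralimit U fun n => c n i
    refine ⟨L, (hf L).trans (P.cls_eq_iff.2 fun K => ?_)⟩
    filter_upwards [Filter.eventually_all.2 fun i => hL i K] with n hn
    rw [hc n, ← Finset.sum_sub_distrib]
    refine Submodule.sum_mem _ fun i _ => ?_
    rw [← sub_smul, ← neg_sub, neg_smul]
    exact neg_mem (Submodule.smul_mem_smul (hn i) Submodule.mem_top)

instance : Module.Free S P.Limit := Module.Free.of_basis P.exists_basis.some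

instance : Module.Finite S P.Limit := Module.Finite.of_basis P.exists_basis.some

omit [IsAdicComplete (maximalIdeal O) O] in
/-- Levels generated over the rings by a fixed family give a finite limit over the limit ring. -/
theorem ModSeq.finite_of_gen {k : ℕ} (w : Fin k → S)
    (hgen : ∀ n (x : P.M n), ∃ c : Fin k × Fin P.D → A n, x = ∑ p, c p • w p.1 • P.b n p.2) :
    Module.Finite (LimRing U A) P.Limit := by
  classical
  refine ⟨⟨Finset.univ.image fun p : Fin k × Fin P.D => P.cls fun n => w p.1 • P.b n p.2,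
    eq_top_iff.2 fun z _ => ?_⟩⟩
  obtain ⟨x, rfl⟩ := P.cls_surjective z
  choose c hc using fun n => hgen n (x n)
  have e : x = ∑ p, fun n => c n p • w p.1 • P.b n p.2 := funext fun n => by
    rw [Finset.sum_apply]
    exact hc n
  rw [e, map_sum]
  refine Submodule.sum_mem _ fun p _ => ?_
  rw [← P.smul_cls (fun n => c n p) fun n => w p.1 • P.b n p.2]
  exact Submodule.smul_mem _ _ (Submodule.subset_span
    (Finset.mem_coe.2 (Finset.mem_image.2 ⟨p, Finset.mem_univ _, rfl⟩)))

omit [IsAdicComplete (maximalIdeal O) O] in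
/-- Scalars which eventually map the levels into multiples of finitely many `g i` do so in the
limit. -/
theorem ModSeq.smul_mem_of_eventually {κ : Type} [Fintype κ] (g : κ → S) {a : ∀ n, A n}
    (h : ∀ᶠ n in (U : Filter ℕ), ∀ x : P.M n, ∃ y : κ → P.M n, a n • x = ∑ i, g i • y i)
    (z : P.Limit) : lim U A a • z ∈ Ideal.span (Set.range g) • (⊤ : Submodule S P.Limit) := by
  classical
  obtain ⟨x, rfl⟩ := P.cls_surjective z
  choose y hy using fun n => show ∃ y : κ → P.M n,
      ((∀ x : P.M n, ∃ y : κ → P.M n, a n • x = ∑ i, g i • y i) → a n • x n = ∑ i, g i • y i) from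
    if hn : ∀ x : P.M n, ∃ y : κ → P.M n, a n • x = ∑ i, g i • y i then
      ⟨(hn (x n)).choose, fun _ => (hn (x n)).choose_spec⟩
    else ⟨0, fun h => absurd h hn⟩
  rw [P.smul_cls]
  have e : (P.cls fun n => a n • x n) = ∑ i, g i • P.cls fun n => y n i := by
    simp only [← map_smul, ← map_sum]
    refine P.cls_eq_iff.2 fun K => h.mono fun n hn => ?_
    simp only [Finset.sum_apply, Pi.smul_apply]
    rw [hy n hn, sub_self]
    exact zero_mem _
  rw [e]
  exact Submodule.sum_mem _ fun i _ =>
    Submodule.smul_mem_smul (Ideal.subset_span ⟨i, rfl⟩) Submodule.mem_top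

variable {P} {Q : ModSeq U A ι O}

/-- The limit of a sequence of maps. -/
def mapLim (f : ∀ n, P.M n →ₗ[S] Q.M n)
    (hf : ∀ n (a : A n) (x : P.M n), f n (a • x) = a • f n x) :
    P.Limit →ₗ[LimRing U A] Q.Limit where
  toFun := P.deepM.mapQ Q.deepM
    (LinearMap.pi fun n => (f n).comp (LinearMap.proj n)) fun x hx K => (hx K).mono fun n hn => by
      have h1 := Submodule.mem_map_of_mem (f := f n) hn
      rw [Submodule.map_smul''] at h1
      exact Submodule.smul_mono le_rfl le_top h1
  map_add' := map_add _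
  map_smul' a z := by
    obtain ⟨a, rfl⟩ := lim_surjective U A a
    obtain ⟨x, rfl⟩ := P.cls_surjective z
    exact congrArg Q.cls (funext fun n => hf n (a n) (x n))

omit [IsAdicComplete (maximalIdeal O) O] in
theorem mapLim_cls (f : ∀ n, P.M n →ₗ[S] Q.M n)
    (hf : ∀ n (a : A n) (x : P.M n), f n (a • x) = a • f n x) (x : ∀ n, P.M n) :
    mapLim f hf (P.cls x) = Q.cls fun n => f n (x n) := rfl

end Fermat.Agent.RT.Lift59.Lim

end
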