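import Fermat.Agent.RT.Algebra.Ultralimit

/-!
# The limit of a sequence of local rings along an ultrafilter

The sequences which eventually lie in every power of the maximal ideals form an ideal of the
product; the quotient receives every identity which holds along the sequence.
-/

set_option autoImplicit false

noncomputable section

namespace Fermat.Agent.RT.Lift59.Lim

open IsLocalRing Fermat.Agent.RT.Algebra

variable (U : Ultrafilter ℕ) (A : ℕ → Type) [∀ n, CommRing (A n)] [∀ n, IsLocalRing (A n)]

/-- Sequences eventually deep in the maximal ideals. -/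
def deep : Ideal (∀ n, A n) where
  carrier := {x | ∀ K : ℕ, ∀ᶠ n in (U : Filter ℕ), x n ∈ maximalIdeal (A n) ^ K}
  add_mem' {x y} hx hy K := by
    filter_upwards [hx K, hy K] with n h1 h2 using add_mem h1 h2
  zero_mem' K := Filter.Eventually.of_forall fun n => zero_mem _
  smul_mem' a x hx K := by
    filter_upwards [hx K] with n h using Ideal.mul_mem_left _ _ h

/-- The limit ring. -/
abbrev LimRing : Type := (∀ n, A n) ⧸ deep U A

/-- The class of a sequence. -/
abbrev lim : (∀ n, A n) →+* LimRing U A := Ideal.Quotient.mk _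

theorem lim_eq_iff {x y : ∀ n, A n} :
    lim U A x = lim U A y ↔ ∀ K : ℕ, ∀ᶠ n in (U : Filter ℕ), x n - y n ∈ maximalIdeal (A n) ^ K :=
  Ideal.Quotient.eq

theorem lim_surjective : Function.Surjective (lim U A) := Ideal.Quotient.mk_surjective

instance : Nontrivial (LimRing U A) := Ideal.Quotient.nontrivial_iff.2 fun h => by
  obtain ⟨n, hn⟩ := ((Ideal.eq_top_iff_one _).1 h 1).exists
  rw [pow_one] at hn
  exact (maximalIdeal.isMaximal (A n)).ne_top ((Ideal.eq_top_iff_one _).2 hn)

variable {O : Type} [CommRing O] [∀ n, Algebra O (A n)]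

theorem algebraMap_lim (c : O) :
    algebraMap O (LimRing U A) c = lim U A fun n => algebraMap O (A n) c := rfl

variable [IsLocalRing O] {σ : Type} [Finite σ] (γ : ∀ n, MvPowerSeries σ O →ₐ[O] A n)

/-- The coordinates of the limit. -/
def const : MvPowerSeries σ O →ₐ[O] LimRing U A :=
  (Ideal.Quotient.mkₐ O (deep U A)).comp (AlgHom.pi γ)

omit [IsLocalRing O] [Finite σ] in
theorem const_apply (f : MvPowerSeries σ O) : const U A γ f = lim U A fun n => γ n f := rfl

variable {γ}

omit [Finite σ] in
theorem map_mem_pow (hγ : ∀ n, Function.Surjective (γ n)) (n : ℕ) {f : MvPowerSeries σ O} {K : ℕ}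
    (hf : f ∈ maximalIdeal (MvPowerSeries σ O) ^ K) : γ n f ∈ maximalIdeal (A n) ^ K := by
  have : IsLocalHom (γ n : MvPowerSeries σ O →+* A n) := IsLocalHom.of_surjective _ (hγ n)
  have h := Ideal.mem_map_of_mem (γ n : MvPowerSeries σ O →+* A n) hf
  rw [Ideal.map_pow] at h
  exact Ideal.pow_right_mono (((local_hom_TFAE _).out 0 2).1 this) K h

variable [IsNoetherianRing O] [IsAdicComplete (maximalIdeal O) O] [Finite (ResidueField O)]

/-- The coordinates generate the limit. -/
theorem const_surjective (hγ : ∀ n, Function.Surjective (γ n)) :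
    Function.Surjective (const U A γ) := by
  intro z
  obtain ⟨x, rfl⟩ := lim_surjective U A z
  choose f hf using fun n => hγ n (x n)
  obtain ⟨L, hL⟩ := exists_ultralimit U f
  refine ⟨L, (const_apply U A γ L).trans ((lim_eq_iff U A).2 fun K => ?_)⟩
  filter_upwards [hL K] with n hn
  rw [← hf n, ← neg_sub, ← map_sub]
  exact neg_mem (map_mem_pow A hγ n hn)

theorem isLocalRing_limRing (hγ : ∀ n, Function.Surjective (γ n)) : IsLocalRing (LimRing U A) :=
  IsLocalRing.of_surjective' (const U A γ : MvPowerSeries σ O →+* LimRing U A)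
    (const_surjective U A hγ)

/-- A sequence in `O` has a limit. -/
theorem exists_limit (c : ℕ → O) :
    ∃ l : O, ∀ K : ℕ, ∀ᶠ n in (U : Filter ℕ), c n - l ∈ maximalIdeal O ^ K := by
  obtain ⟨L, hL⟩ := exists_ultralimit (σ := Empty) U fun n => MvPowerSeries.C (c n)
  refine ⟨MvPowerSeries.constantCoeff L, fun K => (hL K).mono fun n hn => ?_⟩
  have : IsLocalHom (MvPowerSeries.constantCoeff (σ := Empty) (R := O)) :=
    ⟨fun f hf => MvPowerSeries.isUnit_iff_constantCoeff.2 hf⟩
  have h := Ideal.mem_map_of_mem (MvPowerSeries.constantCoeff (σ := Empty) (R := O)) hn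
  rw [Ideal.map_pow, map_sub, MvPowerSeries.constantCoeff_C] at h
  exact Ideal.pow_right_mono (((local_hom_TFAE _).out 0 2).1 this) K h

omit [Finite (ResidueField O)] [IsAdicComplete (maximalIdeal O) O] [IsNoetherianRing O] in
theorem eq_of_eventually [IsHausdorff (maximalIdeal O) O] {l l' : O}
    (h : ∀ K : ℕ, ∀ᶠ _n in (U : Filter ℕ), l - l' ∈ maximalIdeal O ^ K) : l = l' := by
  refine sub_eq_zero.1 (IsHausdorff.haus' (I := maximalIdeal O) _ fun K => ?_)
  rw [SModEq.zero, smul_eq_mul, Ideal.mul_top]
  exact (h K).exists.choose_spec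

/-- A sequence of local points has a limit point. -/
theorem exists_point (e : ∀ n, A n →ₐ[O] O)
    (he : ∀ n, ∀ x ∈ maximalIdeal (A n), e n x ∈ maximalIdeal O) :
    ∃ π : LimRing U A →ₐ[O] O, ∀ (x : ∀ n, A n) (K : ℕ),
      ∀ᶠ n in (U : Filter ℕ), e n (x n) - π (lim U A x) ∈ maximalIdeal O ^ K := by
  choose l hl using fun x : ∀ n, A n => exists_limit U fun n => e n (x n)
  have uniq : ∀ (x : ∀ n, A n) (m : O),
      (∀ K : ℕ, ∀ᶠ n in (U : Filter ℕ), e n (x n) - m ∈ maximalIdeal O ^ K) → l x = m := fun x m hm =>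
    eq_of_eventually U fun K => by
      filter_upwards [hm K, hl x K] with n h1 h2
      simpa using sub_mem h1 h2
  let L : (∀ n, A n) →ₐ[O] O :=
    { toFun := l
      map_one' := uniq _ _ fun K => Filter.Eventually.of_forall fun n => by simp
      map_mul' := fun x y => uniq _ _ fun K => by
        filter_upwards [hl x K, hl y K] with n h1 h2
        rw [Pi.mul_apply, map_mul, show e n (x n) * e n (y n) - l x * l y =
          e n (x n) * (e n (y n) - l y) + (e n (x n) - l x) * l y by ring]
        exact add_mem (Ideal.mul_mem_left _ _ h2) (Ideal.mul_mem_right _ _ h1)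
      map_zero' := uniq _ _ fun K => Filter.Eventually.of_forall fun n => by simp
      map_add' := fun x y => uniq _ _ fun K => by
        filter_upwards [hl x K, hl y K] with n h1 h2
        rw [Pi.add_apply, map_add, add_sub_add_comm]
        exact add_mem h1 h2
      commutes' := fun c => uniq _ _ fun K => Filter.Eventually.of_forall fun n => by simp }
  have hL : ∀ x ∈ deep U A, L x = 0 := fun x hx => uniq x 0 fun K => by
    filter_upwards [hx K] with n hn
    rw [sub_zero]
    have h := Ideal.mem_map_of_mem (e n : A n →+* O) hn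
    rw [Ideal.map_pow] at h
    exact Ideal.pow_right_mono (Ideal.map_le_iff_le_comap.2 (he n)) K h
  exact ⟨Ideal.Quotient.liftₐ (deep U A) L hL, fun x K => hl x K⟩

end Fermat.Agent.RT.Lift59.Lim

end
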